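import Mathlib

/-!
# Entries in a subring after diagonalising an involution

If a group of two by two matrices contains `diag(1, -1)` and has a lower left entry equal to one
and an upper right entry a unit of a subring containing the traces, all entries lie in the subring.
-/

set_option autoImplicit false

noncomputable section

namespace FLTAgent.ModLift.Join

variable {O A G : Type*} [CommRing O] [CommRing A] [Algebra O A] [Group G]

local notation "M2" => Matrix (Fin 2) (Fin 2)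

/-- All entries lie in the subalgebra of the traces. -/
theorem entries_mem (ρ : G →* GL (Fin 2) A) (J : Subalgebra O A)
    (htr : ∀ g, Matrix.trace (ρ g : M2 A) ∈ J) {half : O} (hhalf : 2 * half = 1) {c : G}
    (hc : (ρ c : M2 A) = !![1, 0; 0, -1]) {w : G} (hw : (ρ w : M2 A) 1 0 = 1) {g₀ : G}
    (hg₀ : ∀ h : (ρ g₀ : M2 A) 0 1 ∈ J, IsUnit (⟨(ρ g₀ : M2 A) 0 1, h⟩ : J)) (g : G) :
    ∀ i j, (ρ g : M2 A) i j ∈ J := by
  have h2 : (2 : A) * algebraMap O A half = 1 := by rw [← map_ofNat (algebraMap O A), ← map_mul,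
    hhalf, map_one]
  have hprod : ∀ g h : G, (ρ (g * h) : M2 A) = (ρ g : M2 A) * (ρ h : M2 A) := fun g h => by
    rw [map_mul, Units.val_mul]
  have h00 : ∀ g : G, (ρ g : M2 A) 0 0 ∈ J := fun g => by
    have h1 : (ρ g : M2 A) 0 0 =
        algebraMap O A half * (Matrix.trace (ρ g : M2 A) + Matrix.trace (ρ (c * g) : M2 A)) := by
      rw [hprod, hc]
      simp [Matrix.trace_fin_two, Matrix.mul_apply, Fin.sum_univ_two, Matrix.vecMul, dotProduct]
      linear_combination (-(ρ g : M2 A) 0 0) * h2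
    rw [h1]
    exact J.mul_mem (J.algebraMap_mem _) (J.add_mem (htr _) (htr _))
  have h11 : ∀ g : G, (ρ g : M2 A) 1 1 ∈ J := fun g => by
    rw [show (ρ g : M2 A) 1 1 = Matrix.trace (ρ g : M2 A) - (ρ g : M2 A) 0 0 by
      rw [Matrix.trace_fin_two]; ring]
    exact J.sub_mem (htr g) (h00 g)
  have hoff : ∀ g h : G, (ρ g : M2 A) 0 1 * (ρ h : M2 A) 1 0 ∈ J := fun g h => by
    rw [show (ρ g : M2 A) 0 1 * (ρ h : M2 A) 1 0 =
        (ρ (g * h) : M2 A) 0 0 - (ρ g : M2 A) 0 0 * (ρ h : M2 A) 0 0 by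
      rw [hprod]; simp [Matrix.mul_apply, Fin.sum_univ_two]]
    exact J.sub_mem (h00 _) (J.mul_mem (h00 _) (h00 _))
  have h01 : ∀ g : G, (ρ g : M2 A) 0 1 ∈ J := fun g => by
    have h := hoff g w
    rwa [hw, mul_one] at h
  obtain ⟨u, hu⟩ := hg₀ (h01 g₀)
  have h10 : (ρ g : M2 A) 1 0 ∈ J := by
    have hv : (ρ g₀ : M2 A) 0 1 * ((↑u⁻¹ : J) : A) = 1 := by
      have h := congrArg (Subtype.val) u.mul_inv
      rw [hu] at h
      simpa using h
    rw [show (ρ g : M2 A) 1 0 = ((↑u⁻¹ : J) : A) * ((ρ g₀ : M2 A) 0 1 * (ρ g : M2 A) 1 0) by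
      linear_combination (-(ρ g : M2 A) 1 0) * hv]
    exact J.mul_mem (↑u⁻¹ : J).2 (hoff g₀ g)
  intro i j
  fin_cases i <;> fin_cases j
  · exact h00 g
  · exact h01 g
  · exact h10
  · exact h11 g

end FLTAgent.ModLift.Join
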