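import Fermat.Agent.ModLift.Lift.Tower.Interface
import Fermat.Agent.ModLift.Modules.Spans

/-!
# The fibre product of the algebra of a level with the coefficient ring
-/

set_option autoImplicit false
set_option linter.unusedSectionVars false

noncomputable section

open IsLocalRing

namespace FLTAgent.ModLift.Join

variable {O : Type} [CommRing O] [IsLocalRing O] {R : Type} [CommRing R] [Algebra O R]
  (red : R →ₐ[O] ResidueField O)

/-- Pairs with the same residue. -/
def fib : Subalgebra O (R × O) :=
  AlgHom.equalizer (red.comp (AlgHom.fst O R O))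
    ((Algebra.ofId O (ResidueField O)).comp (AlgHom.snd O R O))

theorem mem_fib {x : R × O} : x ∈ fib red ↔ red x.1 = residue O x.2 := Iff.rfl

/-- The common residue. -/
def fibRed : fib red →ₐ[O] ResidueField O :=
  (red.comp (AlgHom.fst O R O)).comp (fib red).val

theorem fibRed_snd (x : fib red) : fibRed red x = residue O x.1.2 := x.2

theorem isUnit_fib [IsLocalRing R] {x : fib red} (h : fibRed red x ≠ 0) : IsUnit x := by
  have h1 : IsUnit x.1.1 := by
    rw [← IsLocalRing.notMem_maximalIdeal, ← red_eq_zero red]
    exact h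
  have h2 : IsUnit x.1.2 := by
    rw [← IsLocalRing.notMem_maximalIdeal, ← residue_eq_zero_iff, ← fibRed_snd red x]
    exact h
  obtain ⟨a, ha⟩ := h1
  obtain ⟨b, hb⟩ := h2
  have hmem : ((↑a⁻¹ : R), (↑b⁻¹ : O)) ∈ fib red := by
    rw [mem_fib]
    refine mul_left_cancel₀ (show red x.1.1 ≠ 0 from h) ?_
    rw [← map_mul, ← ha, Units.mul_inv, map_one, ha, (mem_fib red).1 x.2, ← map_mul, ← hb,
      Units.mul_inv, map_one]
  exact isUnit_iff_exists_inv.2 ⟨⟨_, hmem⟩, Subtype.ext (Prod.ext (by simp [← ha]) (by simp [← hb]))⟩

theorem isLocalRing_fib [IsLocalRing R] : IsLocalRing (fib red) :=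
  haveI : Nontrivial (fib red) := (fibRed red).toRingHom.domain_nontrivial
  IsLocalRing.of_isUnit_or_isUnit_one_sub_self fun x => by
    by_cases h : fibRed red x = 0
    · exact Or.inr (isUnit_fib red (by rw [map_sub, map_one, h, sub_zero]; exact one_ne_zero))
    · exact Or.inl (isUnit_fib red h)

theorem finite_fib [IsNoetherianRing O] [Module.Finite O R] : Module.Finite O (fib red) :=
  Module.Finite.of_injective (fib red).val.toLinearMap Subtype.val_injective

end FLTAgent.ModLift.Join
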