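import Fermat.Agent.ModLift.Lift.Tower.Join.Diag
import Fermat.Agent.ModLift.Lift.Tower.Join.Fibre
import Fermat.Agent.ModLift.Lift.Local.Quotients
import Fermat.Agent.Lowering.P4.Padic
import Fermat.Agent.ModLift.Tangent.Class.Basic

/-!
# The curve joins the chain

The subalgebra of the fibre product generated by the traces carries a representation whose two
projections are a conjugate of that of the level and that of the curve.
-/

set_option autoImplicit false
set_option linter.unusedSectionVars false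
set_option linter.style.haveILetI false
set_option maxHeartbeats 800000

noncomputable section

open IsLocalRing

namespace FLTAgent.ModLift

open FLTAgent.TWPrimes Join

local notation "LL" => AlgebraicClosure ℚ
local notation "GG" => (AlgebraicClosure ℚ ≃ₐ[ℚ] AlgebraicClosure ℚ)
local notation "VS" => ValuationSubring (AlgebraicClosure ℚ)
local notation "M2" => Matrix (Fin 2) (Fin 2)

/-- An exponent of a Galois element on the roots of unity of order `p ^ n`. -/
theorem exists_cycloExponent (p : ℕ) [Fact p.Prime] (n : ℕ) (σ : GG) :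
    ∃ c : ℕ, DetCyclo.CycloExponent p n σ c := by
  haveI := Lowering.hasRoots_pow p
  exact ⟨_, fun ζ hζ => cyclotomicCharacter.spec p σ.toRingEquiv ζ hζ⟩

/-- The determinant of a level is the cyclotomic character exactly. -/
theorem LevelRep.det_eq {O : Type} [CommRing O] [IsDomain O] [IsDiscreteValuationRing O]
    {p : ℕ} [Fact p.Prime] [Algebra ℤ_[p] O] [Module.Finite ℤ_[p] O]
    [Algebra (ZMod p) (ResidueField O)] {D : Datum p (ResidueField O)} {S : Finset Nat.Primes}
    (L : LevelRep D S) (hpO : (p : O) ∈ maximalIdeal O) (σ : GG) :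
    Matrix.det (L.ρ σ : M2 L.R) = algebraMap O L.R (algebraMap ℤ_[p] O (Lowering.cycZ p σ)) :=
  L.eq_of_forall_sub_mem hpO fun n => by
    obtain ⟨c, hc⟩ := exists_cycloExponent p n σ
    have h1 := Ideal.mem_map_of_mem ((algebraMap O L.R).comp (algebraMap ℤ_[p] O))
      (Lowering.cycZ_sub_mem p hc)
    rw [Ideal.map_span, Set.image_singleton, map_pow, map_natCast, map_sub, map_natCast] at h1
    rw [show ∀ a b : L.R, a - b = (a - c) - (b - c) from fun a b => by ring]
    exact sub_mem (L.det_cyclotomic n σ c hc) h1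

namespace Join

/-- A residual vector whose line is not stable. -/
theorem exists_entry_ne {k : Type} [Field k] {p : ℕ} [Fact p.Prime] [Algebra (ZMod p) k]
    (D : Datum p k) {P P' : M2 k} (hPP' : P * P' = 1) (j i : Fin 2) (hij : i ≠ j) :
    ∃ g : GG, (P' * (D.rb g : M2 k) * P) i j ≠ 0 := by
  by_contra h
  push Not at h
  have hP'P : P' * P = 1 := mul_eq_one_comm.1 hPP'
  have hv : P.mulVec (Pi.single j 1) ≠ 0 := fun h0 => by
    have h1 := congrArg (fun v => P'.mulVec v) h0
    simp only [Matrix.mulVec_mulVec, hP'P, Matrix.one_mulVec, Matrix.mulVec_zero] at h1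
    simpa using congrFun h1 j
  obtain ⟨g, hg⟩ := D.irred _ hv
  refine hg ((P' * (D.rb g : M2 k) * P) j j) ?_
  have h2 : (P' * (D.rb g : M2 k) * P).mulVec (Pi.single j 1) =
      (P' * (D.rb g : M2 k) * P) j j • (Pi.single j 1 : Fin 2 → k) := by
    ext l
    rw [Matrix.mulVec_single_one, Matrix.col_apply, Pi.smul_apply, smul_eq_mul]
    by_cases hl : l = j
    · subst hl; simp
    · have : l = i := by omega
      subst this
      rw [h g, Pi.single_eq_of_ne hl, mul_zero]
  have h3 := congrArg (fun v => P.mulVec v) h2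
  simp only [Matrix.mulVec_mulVec, Matrix.mulVec_smul] at h3
  rwa [← mul_assoc, ← mul_assoc, hPP', one_mul, ← Matrix.mulVec_mulVec] at h3

/-- Two eigenvectors of an involution with trace zero form a basis. -/
theorem exists_eigenbasis {k : Type} [Field k] (h2 : (2 : k) ≠ 0) (E : M2 k) (hE : E * E = E)
    (htr : E.trace = 1) :
    ∃ i j : Fin 2, (Matrix.of fun a b => if b = 0 then E a i else (1 - E) a j).det ≠ 0 := by
  have h2' : ∀ F : M2 k, F.trace = 1 → ∃ i, (fun a => F a i) ≠ 0 := fun F hF => by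
    by_contra h
    push Not at h
    rw [Matrix.trace_fin_two, show F 0 0 = 0 from congrFun (h 0) 0,
      show F 1 1 = 0 from congrFun (h 1) 1, add_zero] at hF
    exact zero_ne_one hF
  obtain ⟨i, hi⟩ := h2' E htr
  obtain ⟨j, hj⟩ := h2' (1 - E) (by
    rw [Matrix.trace_sub, Matrix.trace_one, htr, Fintype.card_fin]
    norm_num)
  refine ⟨i, j, fun hdet => ?_⟩
  obtain ⟨v, hv, hv0⟩ := Matrix.exists_mulVec_eq_zero_iff.2 hdet
  have hE' : E * (1 - E) = 0 := by rw [mul_sub, mul_one, hE, sub_self]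
  have h0 : v 0 • (fun a => E a i) + v 1 • (fun a => (1 - E) a j) = 0 := by
    rw [← hv0]
    ext a
    simp [Matrix.mulVec, dotProduct, Fin.sum_univ_two, mul_comm]
  have h1 := congrArg (fun w => E.mulVec w) h0
  have hEi : E.mulVec (fun a => E a i) = fun a => E a i := funext fun a => congrFun₂ hE a i
  have hEj : E.mulVec (fun a => (1 - E) a j) = 0 := funext fun a => congrFun₂ hE' a j
  simp only [Matrix.mulVec_add, Matrix.mulVec_smul, hEi, hEj, smul_zero, add_zero,
    Matrix.mulVec_zero] at h1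
  have hv0' : v 0 = 0 := (smul_eq_zero.1 h1).resolve_right hi
  have hv1 : v 1 = 0 := by
    rw [hv0', zero_smul, zero_add] at h0
    exact (smul_eq_zero.1 h0).resolve_right hj
  exact hv (funext fun a => by fin_cases a <;> assumption)

/-- Congruences pass to a subalgebra of the fibre product, by the lemma of Artin and Rees. -/
theorem exists_continuous {O R : Type} [CommRing O] [IsLocalRing O] [IsNoetherianRing O] [CommRing R]
    [Algebra O R] [Module.Finite O R] {p : ℕ} (red : R →ₐ[O] ResidueField O)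
    (ρA : GG →* GL (Fin 2) (fib red)) (C : GL (Fin 2) (fib red)) {J : Subalgebra O (fib red)}
    (ρJ : GG →* GL (Fin 2) J)
    (hC : ∀ σ, (ρJ σ : M2 J).map J.val =
      ((C * ρA σ * C⁻¹ : GL (Fin 2) (fib red)) : M2 (fib red)))
    (h : ∀ m : ℕ, ∃ F : IntermediateField ℚ LL, FiniteDimensional ℚ F ∧
      ∀ σ : GG, (∀ x ∈ F, σ x = x) → ∀ a b, ∃ z : R × O,
        (((ρA σ : M2 (fib red)) a b - (1 : M2 (fib red)) a b : fib red) : R × O) =
          ((p : O) ^ m) • z) (n : ℕ) :
    ∃ F : IntermediateField ℚ LL, FiniteDimensional ℚ F ∧ ∀ σ : GG, (∀ x ∈ F, σ x = x) →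
      ∀ i j, (ρJ σ : M2 J) i j - (1 : M2 J) i j ∈ Ideal.span {(p : J) ^ n} := by
  set N : Submodule O (R × O) := (Subalgebra.toSubmodule J).map (fib red).val.toLinearMap with hN
  obtain ⟨k, hk⟩ := Ideal.exists_pow_inf_eq_pow_smul (Ideal.span {(p : O)}) N
  obtain ⟨F, hF, h1⟩ := h (n + k)
  refine ⟨F, hF, fun σ hσ i j => ?_⟩
  set I := Ideal.span {(p : O)}
  have hA : ∀ a b, (((ρA σ : M2 (fib red)) a b - (1 : M2 (fib red)) a b : fib red) : R × O) ∈
      I ^ (n + k) • (⊤ : Submodule O (R × O)) := fun a b => by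
    obtain ⟨z, hz⟩ := h1 σ hσ a b
    rw [hz]
    exact Submodule.smul_mem_smul (Ideal.pow_mem_pow (Ideal.mem_span_singleton_self _) _)
      Submodule.mem_top
  let M0 : Submodule O (fib red) :=
    (I ^ (n + k) • (⊤ : Submodule O (R × O))).comap (fib red).val.toLinearMap
  have hmul : ∀ (a : fib red) (x : fib red), x ∈ M0 → a * x ∈ M0 := fun a x hx => by
    have h3 := Submodule.mem_map_of_mem (f := LinearMap.mulLeft O (a : R × O))
      (Submodule.mem_comap.1 hx)
    rw [Submodule.map_smul''] at h3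
    exact Submodule.smul_mono le_rfl le_top h3
  have hJ : ((((ρJ σ : M2 J) i j - (1 : M2 J) i j : J) : fib red) : R × O) ∈
      I ^ (n + k) • (⊤ : Submodule O (R × O)) := by
    have e2 : (((ρJ σ : M2 J) i j - (1 : M2 J) i j : J) : fib red) =
        ((C : M2 (fib red)) * ((ρA σ : M2 (fib red)) - 1) * ((C⁻¹ : GL (Fin 2) (fib red)) : M2 (fib red))) i j := by
      rw [mul_sub, sub_mul, mul_one, Units.mul_inv, ← Units.val_mul, ← Units.val_mul, ← hC σ,
        Matrix.sub_apply, Matrix.map_apply]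
      simp only [AddSubgroupClass.coe_sub, Subalgebra.coe_val, Matrix.one_apply]
      split_ifs <;> rfl
    show (((ρJ σ : M2 J) i j - (1 : M2 J) i j : J) : fib red) ∈ M0
    rw [e2, Matrix.mul_apply]
    refine Submodule.sum_mem _ fun a _ => ?_
    rw [mul_comm, Matrix.mul_apply, Finset.mul_sum]
    refine Submodule.sum_mem _ fun b _ => hmul _ _ (hmul _ _ (hA b a))
  have hin : ((((ρJ σ : M2 J) i j - (1 : M2 J) i j : J) : fib red) : R × O) ∈
      I ^ (n + k) • (⊤ : Submodule O (R × O)) ⊓ N :=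
    ⟨hJ, ⟨_, ((ρJ σ : M2 J) i j - (1 : M2 J) i j).2, rfl⟩⟩
  rw [hk (n + k) (by omega), Nat.add_sub_cancel] at hin
  have h4 := Submodule.smul_mono le_rfl inf_le_right hin
  rw [Ideal.span_singleton_pow, Submodule.ideal_span_singleton_smul,
    Submodule.mem_smul_pointwise_iff_exists] at h4
  obtain ⟨y, ⟨z, hz, rfl⟩, hy⟩ := h4
  refine Ideal.mem_span_singleton.2 ⟨⟨z, hz⟩, Subtype.ext (Subtype.ext ?_)⟩
  rw [show (p : J) ^ n = algebraMap O J ((p : O) ^ n) by rw [map_pow, map_natCast],
    ← Algebra.smul_def]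
  exact hy.symm

/-- A basis in which complex conjugation is diagonal and the entries lie in any subalgebra of
the traces on which units are reflected. -/
theorem exists_diag {O A : Type} [CommRing O] [IsLocalRing O] [CommRing A] [Algebra O A]
    {p : ℕ} [Fact p.Prime] [Algebra (ZMod p) (ResidueField O)] (D : Datum p (ResidueField O))
    (h2O : IsUnit (2 : O)) (rd : A →ₐ[O] ResidueField O) (hu : ∀ x, rd x ≠ 0 → IsUnit x)
    (ρA : GG →* GL (Fin 2) A)
    (hρr : ∀ σ, (ρA σ : M2 A).map rd = (D.rb σ : M2 (ResidueField O)))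
    (hdetc : Matrix.det (ρA complexConjugation : M2 A) = -1) :
    ∃ T : GL (Fin 2) A, ∀ J : Subalgebra O A, IsLocalHom (J.val : J →+* A) →
      (∀ σ, Matrix.trace (ρA σ : M2 A) ∈ J) →
      ∀ σ i j, ((T⁻¹ * ρA σ * T : GL (Fin 2) A) : M2 A) i j ∈ J := by
  classical
  -- complex conjugation
  obtain ⟨half, hhalf⟩ : ∃ h : O, 2 * h = 1 := ⟨_, h2O.mul_val_inv⟩
  have h2A : (2 : A) * algebraMap O A half = 1 := by
    rw [← map_ofNat (algebraMap O A), ← map_mul, hhalf, map_one]
  have h2k : (2 : ResidueField O) ≠ 0 := by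
    rw [← map_ofNat (residue O)]
    exact (h2O.map (residue O)).ne_zero
  set Mc : M2 A := ((ρA complexConjugation : GL (Fin 2) A) : M2 A) with hMc
  have hMM : Mc * Mc = 1 := by
    rw [hMc, ← Units.val_mul, ← map_mul, complexConjugation_mul_self, map_one, Units.val_one]
  have hMtr : Mc.trace = 0 := by
    have h := ClassAux.cayley_two Mc
    rw [hMc, hdetc, ← hMc, hMM] at h
    simp only [neg_smul, one_smul, sub_neg_eq_add, right_eq_add, left_eq_add] at h
    have h1 : Mc * (Mc.trace • Mc) = 0 := by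
      rw [show Mc.trace • Mc = 0 by linear_combination (norm := module) h, mul_zero]
    rw [Matrix.mul_smul, hMM] at h1
    simpa using congrFun₂ h1 0 0
  set e : M2 A := algebraMap O A half • (1 + Mc) with he
  have hee : e * e = e := by
    rw [he, Matrix.smul_mul, Matrix.mul_smul, smul_smul, add_mul, one_mul, mul_add, mul_one, hMM]
    linear_combination (norm := module) congrArg (fun a => (a * algebraMap O A half) • (1 + Mc)) h2A
  have hetr : e.trace = 1 := by
    rw [he, Matrix.trace_smul, Matrix.trace_add, hMtr, Matrix.trace_one, add_zero, Fintype.card_fin,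
      smul_eq_mul]
    push_cast
    linear_combination h2A
  obtain ⟨i₀, j₀, hdet0⟩ := exists_eigenbasis h2k (rd.toRingHom.mapMatrix e)
    (by rw [← map_mul, hee]) (by
      show (e.map rd).trace = 1
      rw [show (e.map rd).trace = rd e.trace from
        (AddMonoidHom.map_trace rd.toRingHom.toAddMonoidHom e).symm, hetr, map_one])
  set P : M2 A := Matrix.of fun a b => if b = 0 then e a i₀ else (1 - e) a j₀ with hP
  have hPred : P.map rd = Matrix.of fun a b =>
      if b = 0 then (rd.toRingHom.mapMatrix e) a i₀ else (1 - rd.toRingHom.mapMatrix e) a j₀ := by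
    ext a b
    simp only [hP, Matrix.map_apply, Matrix.of_apply, apply_ite rd, RingHom.mapMatrix_apply,
      Matrix.sub_apply, map_sub, Matrix.one_apply]
    split_ifs <;> simp
  have hPu : IsUnit P := by
    rw [Matrix.isUnit_iff_isUnit_det]
    refine hu _ ?_
    rw [show rd P.det = (P.map rd).det from AlgHom.map_det rd P, hPred]
    exact hdet0
  have hMP : Mc * P = P * !![1, 0; 0, -1] := by
    have h1 : Mc * e = e := by
      rw [he, Matrix.mul_smul, mul_add, mul_one, hMM, add_comm]
    have h2 : Mc * (1 - e) = -(1 - e) := by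
      rw [mul_sub, mul_one, h1, neg_sub, he]
      linear_combination (norm := module) congrArg (fun a => a • (1 + Mc)) h2A |>.symm
    refine Matrix.ext fun a b => ?_
    fin_cases b
    · simpa [hP, Matrix.mul_apply, Fin.sum_univ_two] using congrFun₂ h1 a i₀
    · have h := congrFun₂ h2 a j₀
      simp [hP, Matrix.mul_apply, Fin.sum_univ_two] at h ⊢
      linear_combination h
  -- the first change of basis
  let u : GL (Fin 2) A := hPu.unit
  let ρ1 : GG →* GL (Fin 2) A := (MulAut.conj u⁻¹).toMonoidHom.comp ρA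
  have hρ1 : ∀ σ, (ρ1 σ : M2 A) = (↑u⁻¹ : M2 A) * (ρA σ : M2 A) * P := fun σ => by
    simp [ρ1, u, mul_assoc]
  have hρ1r : ∀ σ, (ρ1 σ : M2 A).map rd =
      (↑u⁻¹ : M2 A).map rd * (D.rb σ : M2 (ResidueField O)) * P.map rd := fun σ => by
    rw [hρ1, Matrix.map_mul, Matrix.map_mul, hρr]
  have hPP : P.map rd * (↑u⁻¹ : M2 A).map rd = 1 := by
    rw [← Matrix.map_mul, show P * (↑u⁻¹ : M2 A) = 1 from hPu.mul_val_inv,
      Matrix.map_one _ (map_zero _) (map_one _)]
  obtain ⟨w, hw⟩ := exists_entry_ne D hPP 0 1 (by decide)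
  obtain ⟨g₀, hg₀⟩ := exists_entry_ne D hPP 1 0 (by decide)
  rw [← hρ1r, Matrix.map_apply] at hw hg₀
  have hs : IsUnit ((ρ1 w : M2 A) 1 0) := hu _ hw
  set s : Aˣ := hs.unit with hsdef
  -- the second change of basis
  let v : GL (Fin 2) A :=
    { val := !![1, 0; 0, (s : A)]
      inv := !![1, 0; 0, ((s⁻¹ : Aˣ) : A)]
      val_inv := by
        ext i j : 2
        fin_cases i <;> fin_cases j <;> simp
      inv_val := by
        ext i j : 2
        fin_cases i <;> fin_cases j <;> simp }
  let ρ2 : GG →* GL (Fin 2) A := (MulAut.conj v⁻¹).toMonoidHom.comp ρ1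
  have hρ2 : ∀ σ, (ρ2 σ : M2 A) =
      !![1, 0; 0, ((s⁻¹ : Aˣ) : A)] * (ρ1 σ : M2 A) * !![1, 0; 0, (s : A)] := fun σ => by
    simp [ρ2, v, mul_assoc]
  refine ⟨u * v, fun J hlh htr => ?_⟩
  have htr2 : ∀ σ, Matrix.trace (ρ2 σ : M2 A) = Matrix.trace (ρA σ : M2 A) := fun σ => by
    have h : ρ2 σ = (v⁻¹ * u⁻¹) * ρA σ * (v⁻¹ * u⁻¹)⁻¹ := by simp [ρ2, ρ1, mul_assoc]
    rw [h, Units.val_mul, Units.val_mul, Matrix.trace_units_conj]
  have hentries : ∀ σ i j, (ρ2 σ : M2 A) i j ∈ J := by
    refine entries_mem ρ2 J (fun σ => htr2 σ ▸ htr σ) hhalf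
      (c := complexConjugation) ?_ (w := w) ?_ (g₀ := g₀) fun h => ?_
    · rw [hρ2, hρ1, mul_assoc (↑u⁻¹ : M2 A), ← hMc, hMP, ← mul_assoc (↑u⁻¹ : M2 A),
        show (↑u⁻¹ : M2 A) * P = 1 from hPu.val_inv_mul, one_mul]
      ext i j : 2
      fin_cases i <;> fin_cases j <;> simp [s.inv_mul]
    · rw [hρ2]
      simp [Matrix.mul_apply, Fin.sum_univ_two, Matrix.vecMul, dotProduct]
      exact hs.unit_spec
    · refine IsUnit.of_map (f := (J.val : J →+* A)) _ ?_
      show IsUnit ((ρ2 g₀ : M2 A) 0 1)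
      rw [hρ2]
      simp only [Matrix.mul_apply, Fin.sum_univ_two]
      simpa using (hu _ hg₀).mul s.isUnit
  intro σ i j
  have h : ρ2 σ = (u * v)⁻¹ * ρA σ * (u * v) := by simp [ρ2, ρ1, mul_assoc]
  rw [← h]
  exact hentries σ i j

/-- A subalgebra generated by the traces with a representation that becomes a conjugate of the
given one, the conjugation being trivial at a chosen point. -/
theorem exists_sub {O A : Type} [CommRing O] [IsLocalRing O] [IsNoetherianRing O] [CommRing A]
    [Algebra O A] [Module.Finite O A] [IsLocalRing A] {p : ℕ} [Fact p.Prime]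
    [Algebra (ZMod p) (ResidueField O)] (D : Datum p (ResidueField O))
    (h2O : IsUnit (2 : O)) (rd : A →ₐ[O] ResidueField O) (hu : ∀ x, rd x ≠ 0 → IsUnit x)
    (sA : A →ₐ[O] O) (ρA : GG →* GL (Fin 2) A)
    (hρr : ∀ σ, (ρA σ : M2 A).map rd = (D.rb σ : M2 (ResidueField O)))
    (hdetc : Matrix.det (ρA complexConjugation : M2 A) = -1) :
    ∃ (J : Subalgebra O A) (_ : IsLocalRing J) (ρJ : GG →* GL (Fin 2) J) (C : GL (Fin 2) A),
      Module.Finite O J ∧
      Algebra.adjoin O (Set.range fun σ => Matrix.trace (ρJ σ : M2 J)) = ⊤ ∧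
      (∀ σ, Matrix.trace (ρA σ : M2 A) ∈ J) ∧
      (∀ σ, (ρJ σ : M2 J).map J.val = ((C * ρA σ * C⁻¹ : GL (Fin 2) A) : M2 A)) ∧
      (C : M2 A).map sA = 1 ∧ ((C⁻¹ : GL (Fin 2) A) : M2 A).map sA = 1 := by
  obtain ⟨T, hT⟩ := exists_diag D h2O rd hu ρA hρr hdetc
  set J : Subalgebra O A := Algebra.adjoin O (Set.range fun σ => Matrix.trace (ρA σ : M2 A))
    with hJdef
  haveI hfinJ : Module.Finite O J :=
    Module.Finite.of_injective J.val.toLinearMap Subtype.val_injective
  have hinj : Function.Injective (J.val : J →+* A) := fun a b h => Subtype.ext h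
  have hint : (J.val : J →+* A).IsIntegral := by
    have h0 : ((J.val : J →+* A).comp (algebraMap O J)).IsIntegral := fun x =>
      Algebra.IsIntegral.isIntegral (R := O) x
    exact h0.tower_top _ _
  haveI hlh : IsLocalHom (J.val : J →+* A) := hint.isLocalHom hinj
  haveI hlJ : IsLocalRing J := (J.val : J →+* A).domain_isLocalRing
  have hentries : ∀ σ i j, ((T⁻¹ * ρA σ * T : GL (Fin 2) A) : M2 A) i j ∈ J := fun σ i j =>
    hT J hlh (fun τ => Algebra.subset_adjoin ⟨τ, rfl⟩) σ i j
  let mJ : GG →* M2 J :=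
    { toFun := fun σ => Matrix.of fun i j => ⟨_, hentries σ i j⟩
      map_one' := by
        ext i j : 3
        simp only [map_one, mul_one, inv_mul_cancel, Units.val_one, Matrix.of_apply,
          Matrix.one_apply]
        split_ifs <;> rfl
      map_mul' := fun σ τ => by
        ext i j : 3
        simp only [Matrix.mul_apply, Fin.sum_univ_two, Matrix.of_apply, map_mul]
        rw [show T⁻¹ * (ρA σ * ρA τ) * T = (T⁻¹ * ρA σ * T) * (T⁻¹ * ρA τ * T) by group]
        simp [Matrix.mul_apply, Fin.sum_univ_two] }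
  let TO : GL (Fin 2) O := Matrix.GeneralLinearGroup.map (sA : A →+* O) T
  let Q' : GL (Fin 2) J := Matrix.GeneralLinearGroup.map (algebraMap O J) TO
  let C : GL (Fin 2) A := Matrix.GeneralLinearGroup.map (algebraMap O A) TO * T⁻¹
  let ρJ : GG →* GL (Fin 2) J := (MulAut.conj Q').toMonoidHom.comp mJ.toHomUnits
  have hC : ∀ σ, (ρJ σ : M2 J).map J.val = ((C * ρA σ * C⁻¹ : GL (Fin 2) A) : M2 A) := fun σ => by
    have h1 : Matrix.GeneralLinearGroup.map (J.val : J →+* A) (ρJ σ) = C * ρA σ * C⁻¹ := by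
      have h2 : Matrix.GeneralLinearGroup.map (J.val : J →+* A) (mJ.toHomUnits σ) =
          T⁻¹ * ρA σ * T := Units.ext rfl
      have h3 : Matrix.GeneralLinearGroup.map (J.val : J →+* A) Q' =
          Matrix.GeneralLinearGroup.map (algebraMap O A) TO := Units.ext rfl
      simp only [ρJ, MonoidHom.comp_apply, MulEquiv.coe_toMonoidHom, MulAut.conj_apply, map_mul,
        map_inv, h2, h3, C, mul_inv_rev, inv_inv, mul_assoc]
    exact congrArg Units.val h1
  have hsC' : Matrix.GeneralLinearGroup.map (sA : A →+* O) C = 1 := by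
    simp only [C, map_mul, map_inv]
    rw [show Matrix.GeneralLinearGroup.map (sA : A →+* O)
      (Matrix.GeneralLinearGroup.map (algebraMap O A) TO) = TO from Units.ext
        (Matrix.ext fun i j => sA.commutes _), mul_inv_cancel]
  refine ⟨J, hlJ, ρJ, C, hfinJ, ?_, fun σ => Algebra.subset_adjoin ⟨σ, rfl⟩, hC,
    congrArg Units.val hsC', ?_⟩
  · refine Subalgebra.map_injective (f := J.val) Subtype.val_injective ?_
    rw [Algebra.map_top, Subalgebra.range_val, AlgHom.map_adjoin, ← Set.range_comp]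
    refine Eq.trans (congrArg (fun f => Algebra.adjoin O (Set.range f)) (funext fun σ => ?_))
      hJdef.symm
    show J.val (Matrix.trace (ρJ σ : M2 J)) = _
    rw [show J.val (Matrix.trace (ρJ σ : M2 J)) = Matrix.trace ((ρJ σ : M2 J).map J.val) from
      AddMonoidHom.map_trace J.val.toRingHom.toAddMonoidHom (ρJ σ : M2 J), hC, Units.val_mul, Units.val_mul,
      Matrix.trace_units_conj]
  · have h1 : Matrix.GeneralLinearGroup.map (sA : A →+* O) C⁻¹ = 1 := by
      rw [map_inv, hsC', inv_one]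
    exact congrArg Units.val h1

variable {O : Type} [CommRing O] [IsLocalRing O] {R : Type} [CommRing R] [Algebra O R]
  (red : R →ₐ[O] ResidueField O)

/-- Two representations with the same residual one give one over the fibre product. -/
def rhoFib (r : GG →* GL (Fin 2) R) (s : GG →* GL (Fin 2) O)
    (h : ∀ σ i j, red ((r σ : M2 R) i j) = residue O ((s σ : M2 O) i j)) :
    GG →* GL (Fin 2) (fib red) :=
  MonoidHom.toHomUnits
    { toFun := fun σ => Matrix.of fun i j =>
        (⟨((r σ : M2 R) i j, (s σ : M2 O) i j), h σ i j⟩ : fib red)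
      map_one' := by
        ext i j : 3 <;>
          · simp only [map_one, Units.val_one, Matrix.of_apply, Matrix.one_apply]
            split_ifs <;> rfl
      map_mul' := fun σ τ => by
        ext i j : 3 <;>
          simp [Matrix.mul_apply, Fin.sum_univ_two] }

/-- The first projection. -/
def fibFst : fib red →ₐ[O] R := (AlgHom.fst O R O).comp (fib red).val

/-- The second projection. -/
def fibSnd : fib red →ₐ[O] O := (AlgHom.snd O R O).comp (fib red).val

end Join

theorem targetJoin : TargetJoin := by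
  intro W hΔ p hp O _ _ _ _ _ _ _ _ _ c Q L _
  haveI := L.finite_R
  haveI hfin : Module.Finite O (fib L.red) := finite_fib L.red
  haveI hloc : IsLocalRing (fib L.red) := isLocalRing_fib L.red
  have hres : ∀ σ i j, L.red ((L.ρ σ : M2 L.R) i j) = residue O ((c.rO σ : M2 O) i j) :=
    fun σ i j => by
      rw [← Matrix.map_apply (M := (L.ρ σ : M2 L.R)) (f := L.red), L.red_rho, c.rb_eq]
      rfl
  set ρA := rhoFib L.red L.ρ c.rO hres
  have hρf : ∀ σ, (ρA σ : M2 (fib L.red)).map (fibFst L.red) = (L.ρ σ : M2 L.R) := fun _ => rfl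
  have hρs : ∀ σ, (ρA σ : M2 (fib L.red)).map (fibSnd L.red) = (c.rO σ : M2 O) := fun _ => rfl
  have hρr : ∀ σ, (ρA σ : M2 (fib L.red)).map (fibRed L.red) = (c.D.rb σ : M2 (ResidueField O)) :=
    fun σ => L.red_rho σ
  have hdetO : ∀ σ, Matrix.det (c.rO σ : M2 O) = algebraMap ℤ_[p] O (Lowering.cycZ p σ) :=
      fun σ => by
    have h1 : Matrix.det (c.curve.r σ : M2 ℤ_[p]) = Lowering.cycZ p σ := by
      refine PadicInt.ext_of_toZModPow.mp fun n => ?_
      obtain ⟨e, he⟩ := exists_cycloExponent p n σ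
      rw [← sub_eq_zero, ← map_sub, ← RingHom.mem_ker, PadicInt.ker_toZModPow]
      have h2 := sub_mem (c.curve.det_cyclotomic n σ e he) (Lowering.cycZ_sub_mem p he)
      rwa [sub_sub_sub_cancel_right] at h2
    rw [← h1, RingHom.map_det]
    rfl
  have hdet : ∀ σ, Matrix.det (ρA σ : M2 (fib L.red)) =
      algebraMap O (fib L.red) (algebraMap ℤ_[p] O (Lowering.cycZ p σ)) := fun σ => by
    refine Subtype.ext (Prod.ext ?_ ?_)
    · show fibFst L.red (Matrix.det (ρA σ : M2 (fib L.red))) = algebraMap O L.R _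
      rw [AlgHom.map_det, show (fibFst L.red).mapMatrix (ρA σ : M2 (fib L.red)) = _ from hρf σ,
        L.det_eq c.p_mem]
    · show fibSnd L.red (Matrix.det (ρA σ : M2 (fib L.red))) = algebraMap ℤ_[p] O _
      rw [AlgHom.map_det, show (fibSnd L.red).mapMatrix (ρA σ : M2 (fib L.red)) = _ from hρs σ,
        hdetO]
  have hdetc : Matrix.det (ρA complexConjugation : M2 (fib L.red)) = -1 := by
    rw [hdet, Lowering.cycZ_complexConjugation, map_neg, map_one, map_neg, map_one]
  have hfst : ∀ (σ : GG) (a b : Fin 2),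
      ((ρA σ : M2 (fib L.red)) a b).1.1 = (L.ρ σ : M2 L.R) a b := fun _ _ _ => rfl
  have hsnd : ∀ (σ : GG) (a b : Fin 2),
      ((ρA σ : M2 (fib L.red)) a b).1.2 = (c.rO σ : M2 O) a b := fun _ _ _ => rfl
  clear_value ρA
  obtain ⟨J, hlJ, ρJ, C, hfinJ, hgen, htrA, hC, hsC, hCinv⟩ := exists_sub c.D c.two_unit
    (fibRed L.red) (fun x => isUnit_fib L.red) (fibSnd L.red) ρA hρr hdetc
  have hρJs : ∀ σ, ((ρJ σ : M2 J).map J.val).map (fibSnd L.red) = (c.rO σ : M2 O) := fun σ => by
    rw [hC, Units.val_mul, Units.val_mul, Matrix.map_mul, Matrix.map_mul, hsC, hCinv, hρs, one_mul,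
      mul_one]
  refine ⟨{ R := J
            finite_R := hfinJ
            red := (fibRed L.red).comp J.val
            ρ := ρJ
            red_rho := ?_
            generated := hgen
            det_cyclotomic := ?_
            continuous := ?_
            unramified := ?_ }, (fibFst L.red).comp J.val, (fibSnd L.red).comp J.val,
      Matrix.GeneralLinearGroup.map (fibFst L.red : fib L.red →+* L.R) C, ?_, ?_, ?_,
      fun σ => hρJs σ⟩
  · intro σ
    rw [show (ρJ σ : M2 J).map ((fibRed L.red).comp J.val) =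
      (((ρJ σ : M2 J).map J.val).map (fibSnd L.red)).map (residue O) from
        Matrix.ext fun i j => fibRed_snd L.red _, hρJs, c.rb_eq]
    rfl
  · intro n σ k hk
    have h1 : Matrix.det (ρJ σ : M2 J) =
        algebraMap O J (algebraMap ℤ_[p] O (Lowering.cycZ p σ)) := Subtype.ext (by
      show J.val (Matrix.det (ρJ σ : M2 J)) = _
      rw [show J.val (Matrix.det (ρJ σ : M2 J)) = Matrix.det ((ρJ σ : M2 J).map J.val) from
        AlgHom.map_det J.val (ρJ σ : M2 J), hC, Units.val_mul, Units.val_mul, Matrix.det_units_conj, hdet]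
      rfl)
    have h2 := Ideal.mem_map_of_mem ((algebraMap O J).comp (algebraMap ℤ_[p] O))
      (Lowering.cycZ_sub_mem p hk)
    rw [Ideal.map_span, Set.image_singleton, map_pow, map_natCast, map_sub, map_natCast] at h2
    rw [h1]
    exact h2
  · intro n
    refine exists_continuous L.red ρA C ρJ hC (fun m => ?_) n
    obtain ⟨F1, hF1, h1⟩ := L.continuous m
    obtain ⟨F2, hF2, h2⟩ := c.curve.continuous m
    refine ⟨F1 ⊔ F2, IntermediateField.finiteDimensional_sup F1 F2, fun σ hσ a b => ?_⟩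
    obtain ⟨x, hx⟩ := Ideal.mem_span_singleton.1
      (h1 σ (fun y hy => hσ y ((le_sup_left : F1 ≤ _) hy)) a b)
    have h3 := Ideal.mem_map_of_mem (algebraMap ℤ_[p] O)
      (h2 σ (fun y hy => hσ y ((le_sup_right : F2 ≤ _) hy)) a b)
    rw [Ideal.map_span, Set.image_singleton, map_pow, map_natCast, map_sub] at h3
    obtain ⟨y, hy⟩ := Ideal.mem_span_singleton.1 h3
    refine ⟨(x, y), Prod.ext ?_ ?_⟩
    · show ((ρA σ : M2 (fib L.red)) a b).1.1 - ((1 : M2 (fib L.red)) a b).1.1 = _
      rw [hfst, Prod.smul_fst, Algebra.smul_def, map_pow, map_natCast, ← hx]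
      congr 1
      simp only [Matrix.one_apply]
      split_ifs <;> rfl
    · show ((ρA σ : M2 (fib L.red)) a b).1.2 - ((1 : M2 (fib L.red)) a b).1.2 = _
      rw [hsnd, Prod.smul_snd, smul_eq_mul, ← hy]
      congr 1
      simp only [Matrix.one_apply]
      split_ifs <;> simp <;> rfl
  · intro q hq V hV σ hσ
    have hqS : q ∉ c.S := fun h => hq (Finset.mem_union_left _ h)
    have hqp : (q : ℕ) ≠ p := fun h => hqS (c.mem_S.2 (h ▸ c.S0.p_mem))
    have hgood : W.IsGoodPrimeFor q := fun h => hqS (c.mem_S.2 ((c.bad_iff q q.2).2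
      (Or.inr (Or.inr (Or.inr (c.cover q q.2 h))))))
    have hL : L.ρ σ = 1 := L.unramified q hq V hV σ hσ
    have hO : c.rO σ = 1 := by
      rw [Ctx.rO, MonoidHom.comp_apply, c.curve.unramified q q.2 hqp hgood V hV σ hσ, map_one]
    have h1 : ρA σ = 1 := by
      refine Units.ext (Matrix.ext fun a b => Subtype.ext (Prod.ext ?_ ?_))
      · rw [hfst, hL]
        simp only [Units.val_one, Matrix.one_apply]
        split_ifs <;> rfl
      · rw [hsnd, hO]
        simp only [Units.val_one, Matrix.one_apply]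
        split_ifs <;> rfl
    have h2 : (ρJ σ : M2 J).map J.val = 1 := by
      rw [hC, h1, mul_one, mul_inv_cancel, Units.val_one]
    refine Units.ext (Matrix.ext fun i j => Subtype.ext ((congrFun₂ h2 i j).trans ?_))
    simp only [Units.val_one, Matrix.one_apply]
    split_ifs <;> rfl
  · intro y
    suffices h : y ∈ ((fibFst L.red).comp J.val).range from h
    refine (L.generated.ge.trans (Algebra.adjoin_le ?_)) Algebra.mem_top
    rintro _ ⟨σ, rfl⟩
    refine ⟨⟨_, htrA σ⟩, ?_⟩
    show fibFst L.red (Matrix.trace (ρA σ : M2 (fib L.red))) = _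
    rw [show fibFst L.red (Matrix.trace (ρA σ : M2 (fib L.red))) =
        Matrix.trace ((ρA σ : M2 (fib L.red)).map (fibFst L.red)) from
      AddMonoidHom.map_trace (fibFst L.red).toRingHom.toAddMonoidHom (ρA σ : M2 (fib L.red)), hρf]
  · intro x h1 h2
    exact Subtype.ext (Subtype.ext (Prod.ext h1 h2))
  · intro σ
    rw [show (ρJ σ : M2 J).map ((fibFst L.red).comp J.val) =
      ((ρJ σ : M2 J).map J.val).map (fibFst L.red) from rfl, hC]
    have h1 : Matrix.GeneralLinearGroup.map (fibFst L.red : fib L.red →+* L.R) (C * ρA σ * C⁻¹) =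
        Matrix.GeneralLinearGroup.map (fibFst L.red : fib L.red →+* L.R) C * L.ρ σ *
          (Matrix.GeneralLinearGroup.map (fibFst L.red : fib L.red →+* L.R) C)⁻¹ := by
      rw [map_mul, map_mul, map_inv, show Matrix.GeneralLinearGroup.map
        (fibFst L.red : fib L.red →+* L.R) (ρA σ) = L.ρ σ from Units.ext (hρf σ)]
    exact congrArg Units.val h1

end FLTAgent.ModLift
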